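import Fermat.Agent.SilvermanCubes.Main
import Fermat.Agent.Root.SummaryRealEquidistribution

/-!
# Many representations as sums of two positive cubes

A point near infinity added to a fixed point of the positive arc stays on it, and the multiples of
a point of infinite order come near infinity with positive density.
-/

set_option autoImplicit false

noncomputable section

open WeierstrassCurve Height Finset Filter

namespace FA.PositiveCubes

open FA.MordellCurve FA.SilvermanCubes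

/-- The sum with a point of large abscissa has hardly larger abscissa than the fixed point. -/
theorem translate_bound {B X₀ Y₀ : ℚ} (h₀ : Y₀ ^ 2 = X₀ ^ 3 + B) {ε : ℚ} (hε : 0 < ε) :
    ∃ M₁ : ℚ, ∀ x y : ℚ, M₁ < x → y ^ 2 = x ^ 3 + B →
      x ≠ X₀ ∧ ((y - Y₀) / (x - X₀)) ^ 2 - x - X₀ ≤ X₀ + ε := by
  set C := 2 * |B| + |X₀| ^ 3 with hC
  refine ⟨2 * |X₀| + |B| + 1 + 36 * X₀ ^ 2 / ε + 12 * C / ε + 1152 * Y₀ ^ 2 / ε ^ 2,
    fun x y hx hy => ?_⟩
  have hX : 2 * |X₀| + |B| + 1 < x ∧ 36 * X₀ ^ 2 / ε ≤ x ∧ 12 * C / ε ≤ x ∧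
      1152 * Y₀ ^ 2 / ε ^ 2 ≤ x := by
    have h1 : (0 : ℚ) ≤ |X₀| := abs_nonneg _
    have h2 : (0 : ℚ) ≤ |B| := abs_nonneg _
    have h3 : 0 ≤ 36 * X₀ ^ 2 / ε := by positivity
    have h4 : 0 ≤ 12 * C / ε := by positivity
    have h5 : 0 ≤ 1152 * Y₀ ^ 2 / ε ^ 2 := by positivity
    exact ⟨by linarith, by linarith, by linarith, by linarith⟩
  obtain ⟨hx0, hxX, hxC, hxY⟩ := hX
  rw [div_le_iff₀ hε] at hxX hxC
  rw [div_le_iff₀ (pow_pos hε 2)] at hxY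
  have hX0 := abs_nonneg X₀
  have hB := abs_nonneg B
  have hx1 : 1 ≤ x := by linarith
  have hne : x ≠ X₀ := by
    intro e
    have := le_abs_self X₀
    linarith
  refine ⟨hne, ?_⟩
  have hd : 0 < (x - X₀) ^ 2 := by
    have := sub_ne_zero.2 hne
    positivity
  have key : (y - Y₀) ^ 2 - (x + X₀) * (x - X₀) ^ 2 - X₀ * (x - X₀) ^ 2 =
      3 * X₀ ^ 2 * x - X₀ ^ 3 + 2 * B - 2 * y * Y₀ := by
    linear_combination hy + h₀
  have h1 : 3 * X₀ ^ 2 * x ≤ ε * x ^ 2 / 12 := by nlinarith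
  have h2 : 2 * B - X₀ ^ 3 ≤ ε * x ^ 2 / 12 := by
    have e1 : -X₀ ^ 3 ≤ |X₀| ^ 3 := by rw [← abs_pow]; exact neg_le_abs _
    have e2 := le_abs_self B
    have e3 : x ≤ x ^ 2 := by nlinarith
    nlinarith
  have h3 : -(2 * y * Y₀) ≤ ε * x ^ 2 / 12 := by
    have hy2 : y ^ 2 ≤ 2 * x ^ 3 := by
      have e3 : x ≤ x ^ 3 := le_self_pow₀ hx1 (by norm_num)
      have := le_abs_self B
      linarith
    refine (neg_le_abs _).trans (abs_le_of_sq_le_sq ?_ (by positivity))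
    have e4 : 0 ≤ x ^ 3 := by positivity
    have := mul_le_mul_of_nonneg_left hy2 (sq_nonneg Y₀)
    have := mul_le_mul_of_nonneg_left hxY e4
    nlinarith
  have h4 : x ^ 2 ≤ 4 * (x - X₀) ^ 2 := by
    have := le_abs_self X₀
    nlinarith
  rw [show ((y - Y₀) / (x - X₀)) ^ 2 - x - X₀ =
      ((y - Y₀) ^ 2 - (x + X₀) * (x - X₀) ^ 2) / (x - X₀) ^ 2 by
    rw [div_pow]; field_simp; ring, div_le_iff₀ hd]
  nlinarith [mul_le_mul_of_nonneg_left h4 hε.le]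

/-- The sum of two points with different abscissas. -/
theorem exists_add {k : ℤ} {x y X₀ Y₀ : ℚ} (h : (mordCurve k).toAffine.Nonsingular x y)
    (h₀ : (mordCurve k).toAffine.Nonsingular X₀ Y₀) (hne : x ≠ X₀) :
    ∃ x' y' h', Affine.Point.some x y h + Affine.Point.some X₀ Y₀ h₀ =
      (Affine.Point.some x' y' h' : (mordCurve k).toAffine.Point) ∧
      x' = ((y - Y₀) / (x - X₀)) ^ 2 - x - X₀ := by
  refine ⟨_, _, _, Affine.Point.add_of_X_ne hne, ?_⟩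
  rw [Affine.addX, Affine.slope_of_X_ne hne]
  simp

/-- Points near infinity are moved by a point of the positive arc into it. -/
theorem exists_threshold {M : ℕ} (hM : 0 < M) {X₀ Y₀ : ℚ}
    (h₀ : (mordCurve (-432 * (M : ℤ) ^ 2)).toAffine.Nonsingular X₀ Y₀)
    (hY₀ : Y₀ ^ 2 < 1296 * (M : ℚ) ^ 2) :
    ∃ M₁ : ℚ, ∀ x y h, M₁ < x →
      ∃ x' y' h', Affine.Point.some x y h + Affine.Point.some X₀ Y₀ h₀ =
        (Affine.Point.some x' y' h' : (mordCurve (-432 * (M : ℤ) ^ 2)).toAffine.Point) ∧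
        0 < (cubeCoord M (.some x' y' h')).1 ∧ 0 < (cubeCoord M (.some x' y' h')).2 := by
  have hpos : ∀ x y, (mordCurve (-432 * (M : ℤ) ^ 2)).toAffine.Nonsingular x y → 0 < x :=
    fun x y h => by
    by_contra hle
    have e := curve_eq h
    have : x ^ 3 ≤ 0 := Odd.pow_nonpos (by decide) (not_lt.1 hle)
    have hM' : (0 : ℚ) < M := Nat.cast_pos.2 hM
    nlinarith [sq_nonneg y]
  have e₀ := curve_eq h₀
  set δ := 1728 * (M : ℚ) ^ 2 - X₀ ^ 3 with hδ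
  have hδ0 : 0 < δ := by linarith
  have hX := hpos _ _ h₀
  set ε := min 1 (δ / (6 * (X₀ + 1) ^ 2))
  have hε : 0 < ε := lt_min one_pos (div_pos hδ0 (by positivity))
  obtain ⟨M₁, hM₁⟩ := translate_bound (B := -432 * (M : ℚ) ^ 2) (X₀ := X₀) (Y₀ := Y₀)
    (by linear_combination e₀) hε
  refine ⟨M₁, fun x y h hx => ?_⟩
  obtain ⟨hne, hle⟩ := hM₁ x y hx (by linear_combination curve_eq h)
  obtain ⟨x', y', hns, hadd, hx'⟩ := exists_add h h₀ hne
  refine ⟨x', y', hns, hadd, ?_⟩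
  have hle' : x' ≤ X₀ + ε := hx'.trans_le hle
  have hx'0 := hpos _ _ hns
  have hε1 : ε ≤ 1 := min_le_left _ _
  have h3 : x' ^ 3 < X₀ ^ 3 + δ := by
    have e1 : x' ^ 3 ≤ (X₀ + ε) ^ 3 := pow_le_pow_left₀ hx'0.le hle' 3
    have e2 : ε * (6 * (X₀ + 1) ^ 2) ≤ δ :=
      (le_div_iff₀ (by positivity)).1 (min_le_right _ _)
    have e3 : ε ^ 3 ≤ ε := pow_le_of_le_one hε.le hε1 (by norm_num)
    nlinarith [mul_nonneg (mul_nonneg hε.le hX.le) (sub_nonneg.2 hε1), mul_pos hε hX,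
      mul_pos (mul_pos hε hX) hX]
  have hy' : y' ^ 2 < (36 * (M : ℚ)) ^ 2 := by
    rw [curve_eq hns]; linarith
  obtain ⟨hlo, hhi⟩ := abs_lt_of_sq_lt_sq' hy' (by positivity)
  simp only [cubeCoord]
  exact ⟨div_pos (by linarith) (by positivity), div_pos (by linarith) (by positivity)⟩

/-- The representations as a sum of two positive cubes. -/
def reps (N : ℕ) : Set (ℕ × ℕ) := {q | 0 < q.1 ∧ q.1 < q.2 ∧ q.1 ^ 3 + q.2 ^ 3 = N}

theorem reps_finite (N : ℕ) : (reps N).Finite := by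
  refine ((Set.finite_Iic N).prod (Set.finite_Iic N)).subset fun q ⟨_, _, h⟩ => ⟨?_, ?_⟩
  · have := Nat.le_self_pow (three_ne_zero) q.1
    show q.1 ≤ N; omega
  · have := Nat.le_self_pow (three_ne_zero) q.2
    show q.2 ≤ N; omega

/-- Finitely many positive points give as many representations of one number. -/
theorem exists_number {M : ℕ} (hM : 0 < M)
    (S : Finset (mordCurve (-432 * (M : ℤ) ^ 2)).toAffine.Point) (h0 : ∀ Q ∈ S, Q ≠ 0)
    (hpos : ∀ Q ∈ S, 0 < (cubeCoord M Q).1 ∧ 0 < (cubeCoord M Q).2) {T : ℝ}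
    (hT : ∀ Q ∈ S, logHeight Q.xRep ≤ T) :
    ∃ D : ℕ, 0 < D ∧
      Real.log ((M * D ^ 3 : ℕ) : ℝ) ≤ Real.log M + 3 * (S.card * (Real.log 6 + 3 * T)) ∧
      S.card ≤ 2 * (reps (M * D ^ 3)).ncard + 1 := by
  classical
  choose! d a b hd hdlog ha hb hsum using fun Q (hQ : Q ∈ S) => exists_denominator hM Q (h0 Q hQ)
  set D := ∏ Q ∈ S, d Q
  have hD : 0 < D := prod_pos hd
  refine ⟨D, hD, ?_, ?_⟩
  · have hlogD : Real.log (D : ℝ) ≤ S.card * (Real.log 6 + 3 * T) := by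
      rw [show (D : ℝ) = ∏ Q ∈ S, (d Q : ℝ) by simp [D], Real.log_prod (fun Q hQ =>
        Nat.cast_ne_zero.2 (hd Q hQ).ne')]
      refine (sum_le_card_nsmul _ _ _ fun Q hQ => (hdlog Q hQ).trans ?_).trans_eq
        (nsmul_eq_mul _ _)
      linarith [hT Q hQ]
    push_cast
    rw [Real.log_mul (by positivity) (by positivity), Real.log_pow]
    push_cast
    linarith
  set N := M * D ^ 3
  set f : (mordCurve (-432 * (M : ℤ) ^ 2)).toAffine.Point → ℕ × ℕ :=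
    fun Q => (((D / d Q : ℕ) : ℤ) * a Q |>.natAbs, ((D / d Q : ℕ) : ℤ) * b Q |>.natAbs)
  have hf : ∀ Q ∈ S, ((f Q).1 : ℚ) = D * (cubeCoord M Q).1 ∧
      ((f Q).2 : ℚ) = D * (cubeCoord M Q).2 := fun Q hQ => by
    have hdvd : d Q ∣ D := dvd_prod_of_mem _ hQ
    have hD' : (0 : ℚ) ≤ D := Nat.cast_nonneg D
    constructor <;>
      simp only [f, Nat.cast_natAbs, Int.cast_abs, Int.cast_mul, Int.cast_natCast, ← ha Q hQ,
        ← hb Q hQ, ← mul_assoc, ← Nat.cast_mul, Nat.div_mul_cancel hdvd]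
    · exact abs_of_nonneg (mul_nonneg hD' (hpos Q hQ).1.le)
    · exact abs_of_nonneg (mul_nonneg hD' (hpos Q hQ).2.le)
  have hinj : Set.InjOn f S := fun Q hQ Q' hQ' e => by
    refine cubeCoord_injOn hM (h0 Q hQ) (h0 Q' hQ') (Prod.ext ?_ ?_) <;>
      refine mul_left_cancel₀ (Nat.cast_ne_zero.2 hD.ne' : (D : ℚ) ≠ 0) ?_
    · rw [← (hf Q hQ).1, ← (hf Q' hQ').1, e]
    · rw [← (hf Q hQ).2, ← (hf Q' hQ').2, e]
  set R := (reps_finite N).toFinset
  have hsub : S.image f ⊆ (R ∪ R.image Prod.swap) ∪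
      (S.image f).filter fun q => q.1 = q.2 := by
    intro q hq
    obtain ⟨Q, hQ, rfl⟩ := mem_image.1 hq
    have hD' : (0 : ℚ) < D := Nat.cast_pos.2 hD
    have h1 : 0 < (f Q).1 := Nat.cast_pos (α := ℚ).1 (by
      rw [(hf Q hQ).1]; exact mul_pos hD' (hpos Q hQ).1)
    have h2 : 0 < (f Q).2 := Nat.cast_pos (α := ℚ).1 (by
      rw [(hf Q hQ).2]; exact mul_pos hD' (hpos Q hQ).2)
    have hN : (f Q).1 ^ 3 + (f Q).2 ^ 3 = N := by
      have : ((f Q).1 : ℚ) ^ 3 + ((f Q).2 : ℚ) ^ 3 = ((N : ℕ) : ℚ) := by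
        rw [(hf Q hQ).1, (hf Q hQ).2]
        simp only [N]
        push_cast
        linear_combination (D : ℚ) ^ 3 * hsum Q hQ
      exact_mod_cast this
    rcases lt_trichotomy (f Q).1 (f Q).2 with h | h | h
    · exact mem_union_left _ (mem_union_left _ ((reps_finite N).mem_toFinset.2 ⟨h1, h, hN⟩))
    · exact mem_union_right _ (mem_filter.2 ⟨hq, h⟩)
    · refine mem_union_left _ (mem_union_right _ (mem_image.2 ⟨((f Q).2, (f Q).1), ?_, rfl⟩))
      exact (reps_finite N).mem_toFinset.2 ⟨h2, h, by rw [add_comm]; exact hN⟩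
  have hdiag : ((S.image f).filter fun q => q.1 = q.2).card ≤ 1 := by
    refine card_le_one.2 fun p hp q hq => ?_
    obtain ⟨hp, hp'⟩ := mem_filter.1 hp
    obtain ⟨hq, hq'⟩ := mem_filter.1 hq
    obtain ⟨P, hP, rfl⟩ := mem_image.1 hp
    obtain ⟨Q, hQ, rfl⟩ := mem_image.1 hq
    have e : ∀ Q ∈ S, (f Q).1 = (f Q).2 → 2 * ((f Q).1 : ℚ) ^ 3 = M * (D : ℚ) ^ 3 :=
      fun Q hQ hq => by
      rw [two_mul]
      nth_rw 2 [hq]
      rw [(hf Q hQ).1, (hf Q hQ).2]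
      linear_combination (D : ℚ) ^ 3 * hsum Q hQ
    have e' : (f P).1 ^ 3 = (f Q).1 ^ 3 := by
      have := (e P hP hp').trans (e Q hQ hq').symm
      exact_mod_cast mul_left_cancel₀ (two_ne_zero) this
    have e1 := Nat.pow_left_injective (three_ne_zero) e'
    exact Prod.ext e1 (by rw [← hp', ← hq', e1])
  rw [← card_image_of_injOn hinj, Set.ncard_eq_toFinset_card _ (reps_finite N)]
  refine ((card_le_card hsub).trans (card_union_le _ _)).trans (Nat.add_le_add ?_ hdiag)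
  exact (card_union_le _ _).trans (by rw [two_mul]; exact Nat.add_le_add_left card_image_le _)

/-- **Many representations by two positive cubes** of numbers of the shape `M D³`. -/
theorem many_representations {a b : ℕ} (ha : 0 < a) (hab : a < b) :
    ∃ c : ℝ, 0 < c ∧ ∀ B : ℕ, ∃ D : ℕ, B < (a ^ 3 + b ^ 3) * D ^ 3 ∧
      c * Real.log ((((a ^ 3 + b ^ 3) * D ^ 3 : ℕ)) : ℝ) ^ ((1 : ℝ) / 3) ≤
        ((reps ((a ^ 3 + b ^ 3) * D ^ 3)).ncard : ℝ) := by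
  classical
  obtain ⟨M, hMdef⟩ : ∃ M, M = a ^ 3 + b ^ 3 := ⟨_, rfl⟩
  rw [← hMdef]
  have hM : 0 < M := hMdef ▸ Nat.add_pos_left (pow_pos ha 3) _
  have hMZ : (M : ℤ) ≠ 0 := Int.natCast_ne_zero.2 hM.ne'
  have hk0 : (-432 * (M : ℤ) ^ 2) ≠ 0 := mul_ne_zero (by norm_num) (pow_ne_zero _ hMZ)
  have := isElliptic_mordCurve hk0
  have ha' : (0 : ℚ) < a := Nat.cast_pos.2 ha
  have hab' : (a : ℚ) < b := Nat.cast_lt.2 hab
  have hM' : (M : ℚ) = (a : ℚ) ^ 3 + (b : ℚ) ^ 3 := by rw [hMdef]; push_cast; rfl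
  have hsum : (a : ℚ) + b ≠ 0 := by linarith
  have he : (36 * (M : ℚ) * (a - b) / (a + b)) ^ 2 =
      (12 * (M : ℚ) / (a + b)) ^ 3 + ((-432 * (M : ℤ) ^ 2 : ℤ) : ℚ) := by
    push_cast
    field_simp
    rw [hM']
    ring
  set P₀ : (mordCurve (-432 * (M : ℤ) ^ 2)).toAffine.Point :=
    .some _ _ (nonsingular_mordCurve hk0 he)
  have hY₀ : (36 * (M : ℚ) * (a - b) / (a + b)) ^ 2 < 1296 * (M : ℚ) ^ 2 := by
    have hM0 : (0 : ℚ) < M := Nat.cast_pos.2 hM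
    rw [div_pow, div_lt_iff₀ (by positivity)]
    nlinarith [mul_pos (mul_pos hM0 hM0) (mul_pos ha' (lt_trans ha' hab'))]
  obtain ⟨M₁, hM₁⟩ := exists_threshold hM (nonsingular_mordCurve hk0 he) hY₀
  -- a point of infinite order
  have := FA.SumTwoCubes.infinite_points hMZ (u := (a : ℚ)) (v := (b : ℚ))
    (by rw [Int.cast_natCast, hM']) ha'.ne' (lt_trans ha' hab').ne' hab'.ne
  have := (natCard_torsion_dvd_six hk0).1
  obtain ⟨P, hP⟩ : ∃ P : (mordCurve (-432 * (M : ℤ) ^ 2)).toAffine.Point,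
      ¬IsOfFinAddOrder P := by
    by_contra! h
    exact not_finite_iff_infinite.2 ‹Infinite _› (Finite.of_injective
      (fun Q => (⟨Q, h Q⟩ : AddCommGroup.torsion _)) fun Q Q' e => congrArg Subtype.val e)
  obtain ⟨d, hd, hdens⟩ := (FA.Summary.rationalMultiples_density hP).2 M₁
  obtain ⟨n₀, hn₀⟩ := eventually_atTop.1 (hdens.eventually_const_le (half_lt_self hd))
  -- heights
  obtain ⟨f, ⟨hf, h2⟩, -⟩ := FA.Summary.canonicalHeight (mordCurve (-432 * (M : ℤ) ^ 2))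
  obtain ⟨hpar, hz, hnn, -, -⟩ :=
    FA.Summary.canonicalHeight_properties (mordCurve (-432 * (M : ℤ) ^ 2)) hf h2
  obtain ⟨C, hC⟩ := hf
  have hl6 : 0 < Real.log 6 := Real.log_pos (by norm_num)
  have hP0 := hnn P
  have hP₀0 := hnn P₀
  set A : ℝ := |Real.log M| + 3 * (Real.log 6 + 3 * (|C| + 2 * (f P + f P₀))) + 1 with hA
  have hA0 : 0 < A := by positivity
  refine ⟨d / (8 * A ^ ((1 : ℝ) / 3)), by positivity, fun B => ?_⟩
  set K := ∑ m ∈ Icc 1 B, (reps m).ncard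
  obtain ⟨n, hn⟩ := exists_nat_gt (max (n₀ : ℝ) (max 1 ((8 * (K : ℝ) + 8) / d)))
  simp only [max_lt_iff] at hn
  obtain ⟨hnn₀, hn1, hnK⟩ := hn
  rw [div_lt_iff₀ hd] at hnK
  set good : Set ℕ := {k | k < n ∧ ∃ x y h, k • P = .some x y h ∧ M₁ < x}
  have hgfin : good.Finite := (Set.finite_lt_nat n).subset fun k hk => hk.1
  have hcount : d / 2 * n ≤ (good.ncard : ℝ) := by
    have := hn₀ n (by exact_mod_cast hnn₀.le)
    rwa [le_div_iff₀ (by linarith)] at this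
  set S := hgfin.toFinset.image fun k : ℕ => k • P + P₀
  have hScard : S.card = good.ncard := by
    rw [card_image_of_injective _ (show Function.Injective fun k : ℕ => k • P + P₀ from
      (add_left_injective P₀).comp (injective_nsmul_iff_not_isOfFinAddOrder.2 hP)),
      Set.ncard_eq_toFinset_card _ hgfin]
  have hSle : (S.card : ℝ) ≤ n := by
    rw [hScard, Nat.cast_le]
    exact (Set.ncard_le_ncard (fun k hk => Set.mem_Iio.2 hk.1) (Set.finite_Iio n)).trans_eq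
      (Set.ncard_Iio_nat n)
  have hgood : ∀ Q ∈ S, Q ≠ 0 ∧ (0 < (cubeCoord M Q).1 ∧ 0 < (cubeCoord M Q).2) ∧
      logHeight Q.xRep ≤ |C| + 2 * (f P + f P₀) * (n : ℝ) ^ 2 := by
    intro Q hQ
    obtain ⟨k, hk, rfl⟩ := mem_image.1 hQ
    obtain ⟨hkn, x, y, h, e, hx⟩ := hgfin.mem_toFinset.1 hk
    obtain ⟨x', y', h', e', hp⟩ := hM₁ x y h hx
    rw [← e] at e'
    have hne : k • P + P₀ ≠ 0 := e' ▸ Affine.Point.some_ne_zero _
    refine ⟨hne, by rw [e']; exact hp, ?_⟩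
    have h1 := (abs_le.1 (hC (k • P + P₀))).1
    have h3 : f (k • P) = (k : ℝ) ^ 2 * f P := by
      rw [← natCast_zsmul, hz, Int.cast_natCast]
    have h4 := hpar (k • P) P₀
    have h5 := hnn (k • P - P₀)
    have h6 : (k : ℝ) ^ 2 ≤ (n : ℝ) ^ 2 :=
      pow_le_pow_left₀ (Nat.cast_nonneg k) (Nat.cast_le.2 hkn.le) 2
    have h7 : (1 : ℝ) ≤ (n : ℝ) ^ 2 := one_le_pow₀ hn1.le
    nlinarith [mul_le_mul_of_nonneg_left h6 hP0, mul_le_mul_of_nonneg_left h7 hP₀0,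
      le_abs_self C]
  obtain ⟨D, hD, hlog, hcard⟩ := exists_number hM S (fun Q hQ => (hgood Q hQ).1)
    (fun Q hQ => (hgood Q hQ).2.1) fun Q hQ => (hgood Q hQ).2.2
  have hmain : d * n ≤ 8 * ((reps (M * D ^ 3)).ncard : ℝ) := by
    have h1 : (good.ncard : ℝ) ≤ 2 * ((reps (M * D ^ 3)).ncard : ℝ) + 1 := by
      rw [← hScard]; exact_mod_cast hcard
    have h2 : (0 : ℝ) ≤ K := Nat.cast_nonneg K
    linarith
  refine ⟨D, not_le.1 fun hle => ?_, ?_⟩
  · have h1 : (reps (M * D ^ 3)).ncard ≤ K := single_le_sum (f := fun m => (reps m).ncard)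
      (fun _ _ => Nat.zero_le _) (mem_Icc.2 ⟨Nat.mul_pos hM (pow_pos hD 3), hle⟩)
    have h2 : ((reps (M * D ^ 3)).ncard : ℝ) ≤ K := Nat.cast_le.2 h1
    linarith
  have hlogA : Real.log ((M * D ^ 3 : ℕ) : ℝ) ≤ A * (n : ℝ) ^ 3 := by
    have h7 : (1 : ℝ) ≤ (n : ℝ) ^ 3 := one_le_pow₀ hn1.le
    have h8 : (1 : ℝ) ≤ (n : ℝ) ^ 2 := one_le_pow₀ hn1.le
    have e1 : Real.log 6 + 3 * (|C| + 2 * (f P + f P₀) * (n : ℝ) ^ 2) ≤
        (Real.log 6 + 3 * (|C| + 2 * (f P + f P₀))) * (n : ℝ) ^ 2 := by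
      nlinarith [abs_nonneg C]
    have e2 := mul_le_mul hSle e1 (by positivity) (by positivity)
    have e3 := mul_le_mul_of_nonneg_left h7 (abs_nonneg (Real.log M))
    rw [hA]
    nlinarith [le_abs_self (Real.log M)]
  have hpow : Real.log ((M * D ^ 3 : ℕ) : ℝ) ^ ((1 : ℝ) / 3) ≤ A ^ ((1 : ℝ) / 3) * n := by
    refine (Real.rpow_le_rpow (Real.log_natCast_nonneg _) hlogA (by norm_num)).trans_eq ?_
    rw [Real.mul_rpow hA0.le (by positivity), one_div, show (3 : ℝ)⁻¹ = ((3 : ℕ) : ℝ)⁻¹ by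
      norm_num, Real.pow_rpow_inv_natCast (by positivity) (by norm_num)]
  rw [div_mul_eq_mul_div, div_le_iff₀ (by positivity)]
  calc d * Real.log ((M * D ^ 3 : ℕ) : ℝ) ^ ((1 : ℝ) / 3)
      ≤ d * (A ^ ((1 : ℝ) / 3) * n) := mul_le_mul_of_nonneg_left hpow hd.le
    _ = A ^ ((1 : ℝ) / 3) * (d * n) := by ring
    _ ≤ A ^ ((1 : ℝ) / 3) * (8 * ((reps (M * D ^ 3)).ncard : ℝ)) :=
        mul_le_mul_of_nonneg_left hmain (by positivity)
    _ = _ := by ring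

end FA.PositiveCubes

end
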